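import Mathlib

/-!
# Systems of absolute values and bounds up to M-constants
-/

set_option autoImplicit false

noncomputable section

namespace Fermat.Agent.HT

variable {V k : Type*} [Field k]

/-- An `M`-constant: a family of real numbers `≥ 1`, almost all equal to `1`. -/
def IsM (c : V → ℝ) : Prop := (∀ w, 1 ≤ c w) ∧ {w | c w ≠ 1}.Finite

namespace IsM

variable {c d : V → ℝ}

theorem pos (h : IsM c) (w : V) : 0 < c w := lt_of_lt_of_le one_pos (h.1 w)

theorem nonneg (h : IsM c) (w : V) : 0 ≤ c w := (h.pos w).le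

theorem one : IsM (fun _ : V => (1 : ℝ)) := ⟨fun _ => le_rfl, by simp⟩

theorem mul (hc : IsM c) (hd : IsM d) : IsM (fun w => c w * d w) := by
  refine ⟨fun w => one_le_mul_of_one_le_of_one_le (hc.1 w) (hd.1 w), ?_⟩
  refine (hc.2.union hd.2).subset fun w hw => ?_
  by_contra h
  simp only [Set.mem_union, Set.mem_ofPred_eq, not_or, not_not] at h
  exact hw (by show c w * d w = 1; rw [h.1, h.2, mul_one])

theorem pow (hc : IsM c) (n : ℕ) : IsM (fun w => c w ^ n) := by
  refine ⟨fun w => one_le_pow₀ (hc.1 w), hc.2.subset fun w hw => ?_⟩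
  intro h
  exact hw (by show c w ^ n = 1; rw [h, one_pow])

theorem max (hc : IsM c) (hd : IsM d) : IsM (fun w => Max.max (c w) (d w)) := by
  refine ⟨fun w => le_max_of_le_left (hc.1 w), ?_⟩
  refine (hc.2.union hd.2).subset fun w hw => ?_
  by_contra h
  simp only [Set.mem_union, Set.mem_ofPred_eq, not_or, not_not] at h
  exact hw (by show Max.max (c w) (d w) = 1; rw [h.1, h.2, max_self])

theorem prod {ι : Type*} (s : Finset ι) {c : ι → V → ℝ} (h : ∀ i ∈ s, IsM (c i)) :
    IsM (fun w => ∏ i ∈ s, c i w) := by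
  classical
  induction s using Finset.induction_on with
  | empty => simpa using IsM.one
  | insert a s ha ih =>
    have h1 := (h a (Finset.mem_insert_self _ _)).mul
      (ih fun i hi => h i (Finset.mem_insert_of_mem hi))
    refine (funext fun w => ?_ : (fun w => ∏ i ∈ insert a s, c i w) = _) ▸ h1
    rw [Finset.prod_insert ha]

theorem le_prod {ι : Type*} {s : Finset ι} {c : ι → V → ℝ} (h : ∀ i ∈ s, IsM (c i)) {i : ι}
    (hi : i ∈ s) (w : V) : c i w ≤ ∏ i ∈ s, c i w := by
  classical
  rw [← Finset.mul_prod_erase s (fun i => c i w) hi]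
  exact le_mul_of_one_le_right ((h i hi).nonneg w)
    ((IsM.prod (s.erase i) fun j hj => h j (Finset.mem_of_mem_erase hj)).1 w)

end IsM

/-- A system of absolute values, all but finitely many nonarchimedean, such that every nonzero
element has almost everywhere the absolute value `1`. -/
structure Sys (v : V → AbsoluteValue k ℝ) : Prop where
  fin : ∀ a : k, a ≠ 0 → {w | v w a ≠ 1}.Finite
  na : {w | ¬ IsNonarchimedean (v w)}.Finite

namespace Sys

variable {v : V → AbsoluteValue k ℝ} (hv : Sys v)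

open Classical in
/-- The constant of the `n`-fold ultrametric inequality. -/
def cs (v : V → AbsoluteValue k ℝ) (n : ℕ) (w : V) : ℝ :=
  if IsNonarchimedean (v w) then 1 else max 1 (n : ℝ)

include hv in
theorem isM_cs (n : ℕ) : IsM (cs v n) := by
  refine ⟨fun w => ?_, hv.na.subset fun w hw h => hw ?_⟩
  · unfold cs
    split_ifs
    · exact le_rfl
    · exact le_max_left _ _
  · unfold cs
    rw [if_pos h]

include hv in
theorem isM_val (a : k) : IsM (fun w => max 1 (v w a)) := by
  refine ⟨fun w => le_max_left _ _, ?_⟩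
  by_cases ha : a = 0
  · refine Set.Finite.subset Set.finite_empty fun w hw => hw ?_
    simp [ha]
  · refine (hv.fin a ha).subset fun w hw h => hw ?_
    show max 1 (v w a) = 1
    rw [h, max_self]

theorem sum_le {ι : Type*} (s : Finset ι) (f : ι → k) (w : V) {m : ℝ} (hm : 0 ≤ m)
    (h : ∀ i ∈ s, v w (f i) ≤ m) : v w (∑ i ∈ s, f i) ≤ cs v s.card w * m := by
  classical
  unfold cs
  split_ifs with hna
  · rw [one_mul]
    induction s using Finset.induction_on with
    | empty => simpa using hm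
    | insert a s ha ih =>
      rw [Finset.sum_insert ha]
      exact (hna _ _).trans (max_le (h a (Finset.mem_insert_self _ _))
        (ih fun i hi => h i (Finset.mem_insert_of_mem hi)))
  · calc v w (∑ i ∈ s, f i) ≤ ∑ i ∈ s, v w (f i) := (v w).sum_le _ _
      _ ≤ ∑ _i ∈ s, m := Finset.sum_le_sum h
      _ = s.card * m := by rw [Finset.sum_const, nsmul_eq_mul]
      _ ≤ _ := mul_le_mul_of_nonneg_right (le_max_right _ _) hm

theorem add_le (x y : k) (w : V) {m : ℝ} (hx : v w x ≤ m) (hy : v w y ≤ m) :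
    v w (x + y) ≤ cs v 2 w * m := by
  have hm : 0 ≤ m := ((v w).nonneg x).trans hx
  have := sum_le (v := v) (Finset.univ : Finset (Fin 2)) ![x, y] w hm (by
    intro i _
    fin_cases i
    · exact hx
    · exact hy)
  simpa using this

include hv in
/-- **Bound for polynomials.** -/
theorem exists_poly {σ : Type*} (B : MvPolynomial σ k) : ∃ c : V → ℝ, IsM c ∧ ∃ D : ℕ,
    ∀ (w : V) (P : σ → k) (M : ℝ), 1 ≤ M → (∀ i, v w (P i) ≤ M) →
      v w (MvPolynomial.eval P B) ≤ c w * M ^ D := by
  classical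
  induction B using MvPolynomial.induction_on with
  | C a =>
    refine ⟨_, hv.isM_val a, 0, fun w P M hM hP => ?_⟩
    simp
  | add p q hp hq =>
    obtain ⟨c, hc, D, h⟩ := hp
    obtain ⟨c', hc', D', h'⟩ := hq
    refine ⟨_, (hv.isM_cs 2).mul (hc.mul hc'), D + D', fun w P M hM hP => ?_⟩
    rw [map_add, mul_assoc]
    refine add_le _ _ w ?_ ?_
    · refine (h w P M hM hP).trans ?_
      rw [pow_add]
      have h1 : c w * M ^ D ≤ (c w * c' w) * M ^ D :=
        mul_le_mul_of_nonneg_right (le_mul_of_one_le_right (hc.nonneg w) (hc'.1 w))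
          (by positivity)
      exact h1.trans (mul_le_mul_of_nonneg_left
        (le_mul_of_one_le_right (by positivity) (one_le_pow₀ hM))
        (mul_nonneg (hc.nonneg w) (hc'.nonneg w)))
    · refine (h' w P M hM hP).trans ?_
      rw [pow_add]
      have h1 : c' w * M ^ D' ≤ (c w * c' w) * M ^ D' :=
        mul_le_mul_of_nonneg_right (le_mul_of_one_le_left (hc'.nonneg w) (hc.1 w))
          (by positivity)
      exact h1.trans (mul_le_mul_of_nonneg_left
        (le_mul_of_one_le_left (by positivity) (one_le_pow₀ hM))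
        (mul_nonneg (hc.nonneg w) (hc'.nonneg w)))
  | mul_X p i hp =>
    obtain ⟨c, hc, D, h⟩ := hp
    refine ⟨c, hc, D + 1, fun w P M hM hP => ?_⟩
    rw [map_mul, MvPolynomial.eval_X, map_mul, pow_succ, ← mul_assoc]
    exact mul_le_mul (h w P M hM hP) (hP i) ((v w).nonneg _)
      (mul_nonneg (hc.nonneg w) (by positivity))

include hv in
/-- **Nullstellensatz bound.** -/
theorem exists_nullstellensatz [IsAlgClosed k] {σ : Type*} [Finite σ] {ι : Type*} [Fintype ι]
    (I : Set (MvPolynomial σ k)) (G : ι → MvPolynomial σ k) (H : MvPolynomial σ k)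
    (h : ∀ P : σ → k, (∀ F ∈ I, MvPolynomial.eval P F = 0) →
      (∀ j, MvPolynomial.eval P (G j) = 0) → MvPolynomial.eval P H = 0) :
    ∃ c : V → ℝ, IsM c ∧ ∃ E D : ℕ, 0 < E ∧
    ∀ (w : V) (P : σ → k) (M m : ℝ), 1 ≤ M → (∀ i, v w (P i) ≤ M) → 0 ≤ m →
      (∀ F ∈ I, MvPolynomial.eval P F = 0) → (∀ j, v w (MvPolynomial.eval P (G j)) ≤ m) →
      v w (MvPolynomial.eval P H) ^ E ≤ c w * M ^ D * m := by
  classical
  have h1 : H ∈ (Ideal.span (I ∪ Set.range G)).radical := by
    rw [← MvPolynomial.vanishingIdeal_zeroLocus_eq_radical (K := k)]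
    rw [MvPolynomial.mem_vanishingIdeal_iff]
    intro P hP
    rw [MvPolynomial.mem_zeroLocus_iff] at hP
    have e : ∀ p : MvPolynomial σ k, MvPolynomial.aeval P p = MvPolynomial.eval P p := fun p => by
      rw [MvPolynomial.aeval_eq_eval]
    rw [e]
    refine h P (fun F hF => ?_) fun j => ?_
    · rw [← e]
      exact hP F (Ideal.subset_span (Or.inl hF))
    · rw [← e]
      exact hP _ (Ideal.subset_span (Or.inr ⟨j, rfl⟩))
  obtain ⟨E, hE⟩ := h1
  have hE' : H ^ (E + 1) ∈ Ideal.span I ⊔ Ideal.span (Set.range G) := by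
    rw [← Ideal.span_union, pow_succ]
    exact Ideal.mul_mem_right _ _ hE
  obtain ⟨a, ha, b, hb, hab⟩ := Submodule.mem_sup.1 hE'
  obtain ⟨B, hB⟩ := (Submodule.mem_span_range_iff_exists_fun (MvPolynomial σ k)).1 hb
  choose c hc D hcD using fun j => hv.exists_poly (B j)
  refine ⟨_, (hv.isM_cs (Finset.univ : Finset ι).card).mul
    (IsM.prod Finset.univ fun j _ => hc j), E + 1, ∑ j, D j, Nat.succ_pos _,
    fun w P M m hM hP hm hI hG => ?_⟩
  have h2 : MvPolynomial.eval P a = 0 := by
    have : a ∈ RingHom.ker (MvPolynomial.eval P) := by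
      refine (Ideal.span_le.2 fun F hF => ?_ : Ideal.span I ≤ RingHom.ker (MvPolynomial.eval P)) ha
      exact hI F hF
    exact this
  have h3 : MvPolynomial.eval P H ^ (E + 1) =
      ∑ j, MvPolynomial.eval P (B j) * MvPolynomial.eval P (G j) := by
    rw [← map_pow, ← hab, map_add, h2, zero_add, ← hB, map_sum]
    simp only [smul_eq_mul, map_mul]
  rw [← map_pow, h3, mul_assoc, mul_assoc]
  have hp : ∀ j : ι, v w (MvPolynomial.eval P (B j) * MvPolynomial.eval P (G j)) ≤
      (∏ j, c j w) * (M ^ (∑ j, D j) * m) := by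
    intro j
    rw [map_mul, ← mul_assoc]
    refine mul_le_mul ((hcD j w P M hM hP).trans ?_) (hG j) ((v w).nonneg _) ?_
    · refine mul_le_mul (IsM.le_prod (fun j _ => hc j) (Finset.mem_univ j) w) ?_ (by positivity)
        ((IsM.prod Finset.univ fun j _ => hc j).nonneg w)
      exact pow_le_pow_right₀ hM (Finset.single_le_sum (f := D) (fun _ _ => Nat.zero_le _)
        (Finset.mem_univ j))
    · exact mul_nonneg ((IsM.prod Finset.univ fun j _ => hc j).nonneg w) (by positivity)
  exact sum_le _ _ w (mul_nonneg ((IsM.prod Finset.univ fun j _ => hc j).nonneg w)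
    (by positivity)) fun j _ => hp j

include hv in
/-- **Inverse of a matrix.** -/
theorem exists_matrix {ι : Type*} [Fintype ι] [DecidableEq ι] (X : Matrix ι ι k)
    (hX : X.det ≠ 0) :
    ∃ c : V → ℝ, IsM c ∧ ∀ (w : V) (d : ι → k) (m : ℝ), (∀ i, v w (X.mulVec d i) ≤ m) →
      ∀ j, v w (d j) ≤ c w * m := by
  classical
  refine ⟨_, (hv.isM_cs (Finset.univ : Finset ι).card).mul
    (IsM.prod (Finset.univ : Finset (ι × ι)) fun p _ => hv.isM_val (X⁻¹ p.1 p.2)),
    fun w d m h j => ?_⟩
  have hm : 0 ≤ m := ((v w).nonneg _).trans (h j)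
  have h1 : d = X⁻¹.mulVec (X.mulVec d) := by
    rw [Matrix.mulVec_mulVec, Matrix.nonsing_inv_mul _ (isUnit_iff_ne_zero.2 hX),
      Matrix.one_mulVec]
  rw [h1, Matrix.mulVec, dotProduct, mul_assoc]
  refine sum_le _ _ w (mul_nonneg ((IsM.prod Finset.univ fun p _ => hv.isM_val _).nonneg w) hm)
    fun i _ => ?_
  rw [map_mul]
  refine mul_le_mul ?_ (h i) ((v w).nonneg _)
    ((IsM.prod Finset.univ fun p _ => hv.isM_val _).nonneg w)
  refine (le_max_right 1 _).trans ?_
  exact IsM.le_prod (c := fun (p : ι × ι) w => max 1 (v w (X⁻¹ p.1 p.2)))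
    (fun p _ => hv.isM_val _) (Finset.mem_univ (j, i)) w

include hv in
/-- **Vandermonde.** -/
theorem exists_vandermonde (T : Finset k) (r : ℕ) :
    ∃ c : V → ℝ, IsM c ∧ ∀ (w : V) (d : Fin (r + 1) → k) (S : Finset k), S ⊆ T → r + 1 ≤ S.card →
      ∀ m : ℝ, (∀ t ∈ S, v w (∑ j : Fin (r + 1), t ^ (j : ℕ) * d j) ≤ m) →
      ∀ j, v w (d j) ≤ c w * m := by
  classical
  have key : ∀ f : Fin (r + 1) → T, ∃ c : V → ℝ, IsM c ∧ (Function.Injective f →
      ∀ (w : V) (d : Fin (r + 1) → k) (m : ℝ),
      (∀ i, v w (∑ j : Fin (r + 1), (f i : k) ^ (j : ℕ) * d j) ≤ m) →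
      ∀ j, v w (d j) ≤ c w * m) := by
    intro f
    by_cases hf : Function.Injective f
    · have hdet : (Matrix.vandermonde fun i => (f i : k)).det ≠ 0 := by
        rw [Matrix.det_vandermonde_ne_zero_iff]
        exact Subtype.val_injective.comp hf
      obtain ⟨c, hc, h⟩ := hv.exists_matrix _ hdet
      refine ⟨c, hc, fun _ w d m hm => h w d m fun i => ?_⟩
      have : (Matrix.vandermonde fun i => (f i : k)).mulVec d i =
          ∑ j : Fin (r + 1), (f i : k) ^ (j : ℕ) * d j := by
        simp [Matrix.mulVec, dotProduct, Matrix.vandermonde_apply]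
      rw [this]
      exact hm i
    · exact ⟨_, IsM.one, fun h => absurd h hf⟩
  choose c hc h using key
  refine ⟨_, IsM.prod Finset.univ fun f _ => hc f, fun w d S hS hcard m hm j => ?_⟩
  obtain ⟨S', hS', hcard'⟩ := Finset.exists_subset_card_eq hcard
  let e := S'.equivFinOfCardEq hcard'
  let f : Fin (r + 1) → T := fun i => ⟨e.symm i, hS (hS' (e.symm i).2)⟩
  have hf : Function.Injective f := by
    intro i j hij
    have : ((e.symm i : S') : k) = e.symm j := congrArg (fun x : T => (x : k)) hij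
    exact e.symm.injective (Subtype.ext this)
  have hm0 : 0 ≤ m := ((v w).nonneg _).trans (hm (f 0) (hS' (e.symm 0).2))
  refine (h f hf w d m (fun i => hm _ (hS' (e.symm i).2)) j).trans ?_
  exact mul_le_mul_of_nonneg_right
    (IsM.le_prod (fun f _ => hc f) (Finset.mem_univ f) w) hm0

include hv in
/-- **Vandermonde pigeonhole**: a common good parameter for finitely many vectors. -/
theorem exists_good (T : Finset k) (r s : ℕ) (hT : r * s < T.card) :
    ∃ c : V → ℝ, IsM c ∧ ∀ (w : V) (ι : Type) [Fintype ι] (_ : Fintype.card ι ≤ s)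
      (d : ι → Fin (r + 1) → k), ∃ t ∈ T, ∀ i j,
        v w (d i j) ≤ c w * v w (∑ j : Fin (r + 1), t ^ (j : ℕ) * d i j) := by
  classical
  obtain ⟨c, hc, h⟩ := hv.exists_vandermonde T r
  refine ⟨c, hc, fun w ι _ hι d => ?_⟩
  by_contra hcon
  push Not at hcon
  -- bad parameters for each vector
  let bad : ι → Finset k := fun i => T.filter fun t =>
    ∃ j, c w * v w (∑ j : Fin (r + 1), t ^ (j : ℕ) * d i j) < v w (d i j)
  have hcov : T ⊆ Finset.univ.biUnion bad := by
    intro t ht
    obtain ⟨i, j, hij⟩ := hcon t ht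
    exact Finset.mem_biUnion.2 ⟨i, Finset.mem_univ _, Finset.mem_filter.2 ⟨ht, j, hij⟩⟩
  have hbad : ∀ i, (bad i).card ≤ r := by
    intro i
    by_contra hi
    push Not at hi
    obtain ⟨t, ht, hmax⟩ := (bad i).exists_max_image
      (fun t => v w (∑ j : Fin (r + 1), t ^ (j : ℕ) * d i j))
      (Finset.card_pos.1 (by omega))
    obtain ⟨-, j, hj⟩ := Finset.mem_filter.1 ht
    exact absurd (h w (d i) (bad i) (Finset.filter_subset _ _) hi _ hmax j) (not_le.2 hj)
  have h1 : T.card ≤ s * r := calc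
    T.card ≤ (Finset.univ.biUnion bad).card := Finset.card_le_card hcov
    _ ≤ ∑ i : ι, (bad i).card := Finset.card_biUnion_le
    _ ≤ ∑ _i : ι, r := Finset.sum_le_sum fun i _ => hbad i
    _ = Fintype.card ι * r := by rw [Finset.sum_const, smul_eq_mul, Finset.card_univ]
    _ ≤ s * r := Nat.mul_le_mul_right _ hι
  rw [mul_comm] at h1
  omega

end Sys

end Fermat.Agent.HT
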